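/-
S25 / block R (formal representability): basic utilities.
-/
import Fermat.Agent.S25.RepDefs

set_option autoImplicit false

universe w u

open CategoryTheory CategoryTheory.Limits AlgebraicGeometry Opposite

namespace Fermat.Agent.S25.Rep

variable {S : Scheme.{u}}

section Functor

variable (F : (Over S)ᵒᵖ ⥤ Type w)

lemma map_comp' {A B C : Over S} (g : A ⟶ B) (h : B ⟶ C) (a : F.obj (op C)) :
    F.map (g ≫ h).op a = F.map g.op (F.map h.op a) := by
  simp

lemma map_id' {A : Over S} (a : F.obj (op A)) : F.map (𝟙 A).op a = a := by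
  simp

end Functor

instance instIsOpenImmersionIncl (T : Over S) (U : T.left.Opens) :
    IsOpenImmersion (incl T U).left :=
  inferInstanceAs (IsOpenImmersion U.ι)

lemma mono_of_isOpenImmersion {Y T : Over S} (j : Y ⟶ T) [IsOpenImmersion j.left] : Mono j := by
  have : Mono j.left := inferInstance
  exact Over.mono_of_mono_left j

/-- lifting through an open immersion in `Over S` -/
lemma exists_liftOI {T Y T' : Over S} (j : Y ⟶ T) [IsOpenImmersion j.left] (h : T' ⟶ T)
    (hh : ∀ x : T'.left, h.left.base x ∈ Set.range j.left.base) :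
    ∃ h' : T' ⟶ Y, h' ≫ j = h := by
  have H : Set.range h.left ⊆ Set.range j.left := by
    rintro _ ⟨x, rfl⟩
    exact hh x
  refine ⟨Over.homMk (IsOpenImmersion.lift j.left h.left H) ?_, ?_⟩
  · rw [← Over.w j, ← Category.assoc, IsOpenImmersion.lift_fac, Over.w]
  · ext1
    simp [IsOpenImmersion.lift_fac]

lemma incl_base_mem (T : Over S) (U : T.left.Opens) (y : (restr T U).left) :
    (incl T U).left.base y ∈ U := by
  exact y.2

lemma range_incl (T : Over S) (U : T.left.Opens) :
    Set.range (incl T U).left.base = (U : Set T.left) := by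
  exact Scheme.Opens.range_ι U

lemma exists_liftU {T T' : Over S} (U : T.left.Opens) (h : T' ⟶ T)
    (hh : ∀ x : T'.left, h.left.base x ∈ U) :
    ∃ h' : T' ⟶ restr T U, h' ≫ incl T U = h :=
  exists_liftOI (incl T U) h (fun x => by rw [range_incl]; exact hh x)

lemma homExt {T J : Over S} (g g' : T ⟶ J)
    (H : ∀ x : T.left, ∃ U : T.left.Opens, x ∈ U ∧ incl T U ≫ g = incl T U ≫ g') : g = g' := by
  ext1
  apply Scheme.hom_ext_of_forall
  intro x
  obtain ⟨U, hx, hU⟩ := H x
  exact ⟨U, hx, congrArg (fun φ => φ.left) hU⟩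

variable (F : (Over S)ᵒᵖ ⥤ Type w)

variable {F} in
lemma sep' (hsep : IsSep F) {T : Over S} (a b : F.obj (op T))
    (H : ∀ x : T.left, ∃ U : T.left.Opens, x ∈ U ∧
      F.map (incl T U).op a = F.map (incl T U).op b) : a = b := by
  choose U hx hU using H
  refine hsep T U ?_ a b hU
  rw [eq_top_iff]
  intro x _
  exact TopologicalSpace.Opens.mem_iSup.2 ⟨x, hx x⟩

variable {F} in
lemma exists_of_local (hsep : IsSep F) {X : Over S} (ξ : F.obj (op X))
    (mono : ∀ (T : Over S) (g g' : T ⟶ X), F.map g.op ξ = F.map g'.op ξ → g = g')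
    {T : Over S} (η : F.obj (op T))
    (H : ∀ x : T.left, ∃ U : T.left.Opens, x ∈ U ∧
      ∃ g : restr T U ⟶ X, F.map g.op ξ = F.map (incl T U).op η) :
    ∃ g : T ⟶ X, F.map g.op ξ = η := by
  choose U hx g hg using H
  have hcov : TopologicalSpace.IsOpenCover U := by
    rw [TopologicalSpace.IsOpenCover, eq_top_iff]
    intro x _
    exact TopologicalSpace.Opens.mem_iSup.2 ⟨x, hx x⟩
  let 𝒰 : T.left.OpenCover := T.left.openCoverOfIsOpenCover U hcov
  have compat : ∀ x y : T.left, pullback.fst (U x).ι (U y).ι ≫ (g x).left =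
      pullback.snd (U x).ι (U y).ι ≫ (g y).left := by
    intro x y
    let P : Over S := Over.mk (pullback.fst (U x).ι (U y).ι ≫ (U x).ι ≫ T.hom)
    let a : P ⟶ restr T (U x) := Over.homMk (pullback.fst (U x).ι (U y).ι) rfl
    let b : P ⟶ restr T (U y) := Over.homMk (pullback.snd (U x).ι (U y).ι) (by
      show pullback.snd (U x).ι (U y).ι ≫ (U y).ι ≫ T.hom =
        pullback.fst (U x).ι (U y).ι ≫ (U x).ι ≫ T.hom
      rw [← Category.assoc, ← pullback.condition, Category.assoc])
    have hab : a ≫ incl T (U x) = b ≫ incl T (U y) := by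
      ext1
      exact pullback.condition
    have := mono P (a ≫ g x) (b ≫ g y) (by
      rw [map_comp', map_comp', hg, hg, ← map_comp', ← map_comp', hab])
    exact congrArg (fun φ => φ.left) this
  let G := 𝒰.glueMorphisms (fun x => (g x).left) compat
  have hG : ∀ x, (U x).ι ≫ G = (g x).left := fun x => 𝒰.ι_glueMorphisms _ _ x
  have hGS : G ≫ X.hom = T.hom := by
    apply 𝒰.hom_ext
    intro x
    have h1 : 𝒰.f x ≫ G ≫ X.hom = ((U x).ι ≫ G) ≫ X.hom := by
      rw [Category.assoc]; rfl
    rw [h1, hG x]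
    exact Over.w (g x)
  refine ⟨Over.homMk G hGS, ?_⟩
  apply sep' hsep
  intro x
  refine ⟨U x, hx x, ?_⟩
  have h2 : incl T (U x) ≫ Over.homMk G hGS = g x := by
    ext1
    exact hG x
  rw [← map_comp', ← hg x, h2]

variable {F} in
lemma glue2' (hglue : HasGlue2 F) {T T1 T2 : Over S} (f1 : T1 ⟶ T) (f2 : T2 ⟶ T)
    [IsOpenImmersion f1.left] [IsOpenImmersion f2.left]
    (hcov : ∀ z : T.left, z ∈ Set.range f1.left.base ∨ z ∈ Set.range f2.left.base)
    (a1 : F.obj (op T1)) (a2 : F.obj (op T2))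
    (compat : ∀ (T' : Over S) (g1 : T' ⟶ T1) (g2 : T' ⟶ T2), g1 ≫ f1 = g2 ≫ f2 →
      F.map g1.op a1 = F.map g2.op a2) :
    ∃ x : F.obj (op T), F.map f1.op x = a1 ∧ F.map f2.op x = a2 := by
  have key : ∀ {Y : Over S} (f : Y ⟶ T) [IsOpenImmersion f.left],
      ∃ (e : restr T f.left.opensRange ⟶ Y) (d : Y ⟶ restr T f.left.opensRange),
        e ≫ f = incl T f.left.opensRange ∧ d ≫ incl T f.left.opensRange = f ∧ d ≫ e = 𝟙 Y := by
    intro Y f _
    obtain ⟨e, he⟩ := exists_liftOI f (incl T f.left.opensRange) (fun y => y.2)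
    obtain ⟨d, hd⟩ := exists_liftU f.left.opensRange f (fun x => ⟨x, rfl⟩)
    refine ⟨e, d, he, hd, ?_⟩
    have := mono_of_isOpenImmersion f
    rw [← cancel_mono f, Category.assoc, he, hd, Category.id_comp]
  obtain ⟨e1, d1, he1, hd1, hde1⟩ := key f1
  obtain ⟨e2, d2, he2, hd2, hde2⟩ := key f2
  have htop : f1.left.opensRange ⊔ f2.left.opensRange = ⊤ := by
    rw [eq_top_iff]
    intro z _
    rcases hcov z with h | h
    · exact Or.inl h
    · exact Or.inr h
  obtain ⟨x, hx1, hx2⟩ := hglue T _ _ htop (F.map e1.op a1) (F.map e2.op a2) (by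
    rw [← map_comp', ← map_comp']
    apply compat
    rw [Category.assoc, Category.assoc, he1, he2]
    ext1
    simp)
  refine ⟨x, ?_, ?_⟩
  · rw [← hd1, map_comp', hx1, ← map_comp', hde1, map_id']
  · rw [← hd2, map_comp', hx2, ← map_comp', hde2, map_id']

section Pushout

variable {W X1 X2 : Scheme.{u}} (f : W ⟶ X1) (g : W ⟶ X2) [IsOpenImmersion f] [IsOpenImmersion g]

lemma isOpenImmersion_span_map {i j : WalkingSpan} (φ : i ⟶ j) :
    IsOpenImmersion ((span f g).map φ) := by
  rcases φ with _ | k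
  · rw [show WidePushoutShape.Hom.id i = 𝟙 i from rfl, CategoryTheory.Functor.map_id]
    infer_instance
  · cases k
    · exact inferInstanceAs (IsOpenImmersion f)
    · exact inferInstanceAs (IsOpenImmersion g)

instance instOIspan {i j : WalkingSpan} (φ : i ⟶ j) :
    IsOpenImmersion ((span f g).map φ) := isOpenImmersion_span_map f g φ

instance instOIinl : IsOpenImmersion (pushout.inl f g) :=
  inferInstanceAs (IsOpenImmersion (colimit.ι (span f g) WalkingSpan.left))

instance instOIinr : IsOpenImmersion (pushout.inr f g) :=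
  inferInstanceAs (IsOpenImmersion (colimit.ι (span f g) WalkingSpan.right))

lemma pushout_cover (z : (pushout f g : Scheme.{u})) :
    z ∈ Set.range (pushout.inl f g) ∨ z ∈ Set.range (pushout.inr f g) := by
  obtain ⟨i, x, hx⟩ := Scheme.IsLocallyDirected.ι_jointly_surjective (span f g) z
  rcases i with _ | i
  · left
    refine ⟨f x, ?_⟩
    rw [← hx, ← colimit.w (span f g) WalkingSpan.Hom.fst]
    rfl
  · cases i
    · exact Or.inl ⟨x, hx⟩
    · exact Or.inr ⟨x, hx⟩

lemma pushout_inter (x : X1) (y : X2) (h : pushout.inl f g x = pushout.inr f g y) :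
    ∃ z : W, f z = x ∧ g z = y := by
  obtain ⟨k, fi, fj, z, h1, h2⟩ := (Scheme.IsLocallyDirected.ι_eq_ι_iff (span f g) (i := WalkingSpan.left) (j := WalkingSpan.right)).1 h
  rcases fi with _ | k
  · exact nomatch fj
  · rcases fj with _ | k
    exact ⟨z, h1, h2⟩

end Pushout

end Fermat.Agent.S25.Rep
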