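/-
S25 / block R (formal representability): charts and the merging of two charts.
-/
import Fermat.Agent.S25.Rep.Basic

set_option autoImplicit false

universe w u

open CategoryTheory CategoryTheory.Limits AlgebraicGeometry Opposite

namespace Fermat.Agent.S25.Rep

variable {S : Scheme.{u}}

/-- restrict `h` to an open neighbourhood of `x` on which it factors through the open
immersion `j`. -/
lemma exists_factor {Y X T' : Over S} (j : Y ⟶ X) [IsOpenImmersion j.left] (h : T' ⟶ X)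
    (x : T'.left) (hx : h.left.base x ∈ Set.range j.left.base) :
    ∃ (V : T'.left.Opens) (h1 : restr T' V ⟶ Y), x ∈ V ∧ incl T' V ≫ h = h1 ≫ j := by
  obtain ⟨h1, hh1⟩ := exists_liftOI j (incl T' (h.left ⁻¹ᵁ j.left.opensRange) ≫ h) (fun y => y.2)
  exact ⟨h.left ⁻¹ᵁ j.left.opensRange, h1, hx, hh1.symm⟩

/-- restrict `h` to an open neighbourhood of `x` on which it lands in the open `U`. -/
lemma exists_factorU {X T' : Over S} (U : X.left.Opens) (h : T' ⟶ X)
    (x : T'.left) (hx : h.left.base x ∈ U) :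
    ∃ (V : T'.left.Opens), x ∈ V ∧ ∀ y : (restr T' V).left, (incl T' V ≫ h).left.base y ∈ U :=
  ⟨h.left ⁻¹ᵁ U, hx, fun y => y.2⟩

variable (F : (Over S)ᵒᵖ ⥤ Type w)

/-- a representable open subfunctor of `F` -/
structure Chart where
  X : Over S
  ξ : F.obj (op X)
  mono : ∀ (T : Over S) (g g' : T ⟶ X), F.map g.op ξ = F.map g'.op ξ → g = g'
  isOpen : ∀ (T : Over S) (η : F.obj (op T)), ∃ U : T.left.Opens,
    ∀ (T' : Over S) (h : T' ⟶ T), (∀ x : T'.left, h.left.base x ∈ U) ↔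
      ∃ g : T' ⟶ X, F.map g.op ξ = F.map h.op η

variable {F}

/-- the charts of an atlas -/
def Atlas.chart (𝒜 : Atlas F) (i : 𝒜.ι) : Chart F where
  X := 𝒜.X i
  ξ := 𝒜.ξ i
  mono := 𝒜.mono i
  isOpen := 𝒜.isOpen i

/-- one half of the transition isomorphism -/
lemma Chart.exists_trans (c1 c2 : Chart F) (U12 : c1.X.left.Opens) (U21 : c2.X.left.Opens)
    (h12 : ∀ (T' : Over S) (h : T' ⟶ c1.X), (∀ x : T'.left, h.left.base x ∈ U12) ↔
      ∃ g : T' ⟶ c2.X, F.map g.op c2.ξ = F.map h.op c1.ξ)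
    (h21 : ∀ (T' : Over S) (h : T' ⟶ c2.X), (∀ x : T'.left, h.left.base x ∈ U21) ↔
      ∃ g : T' ⟶ c1.X, F.map g.op c1.ξ = F.map h.op c2.ξ) :
    ∃ t : restr c1.X U12 ⟶ restr c2.X U21,
      F.map (t ≫ incl c2.X U21).op c2.ξ = F.map (incl c1.X U12).op c1.ξ := by
  obtain ⟨g, hg⟩ := (h12 _ (incl c1.X U12)).1 (fun y => y.2)
  obtain ⟨t, ht⟩ := exists_liftU U21 g ((h21 _ g).2 ⟨incl c1.X U12, hg.symm⟩)
  exact ⟨t, by rw [ht, hg]⟩

/-- the "fibre product" of two charts over `F` -/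
lemma Chart.exists_overlap (c1 c2 : Chart F) :
    ∃ (W : Over S) (f : W ⟶ c1.X) (g : W ⟶ c2.X), IsOpenImmersion f.left ∧
      IsOpenImmersion g.left ∧ F.map f.op c1.ξ = F.map g.op c2.ξ ∧
      ∀ (T' : Over S) (a : T' ⟶ c1.X) (b : T' ⟶ c2.X), F.map a.op c1.ξ = F.map b.op c2.ξ →
        ∃ c : T' ⟶ W, c ≫ f = a ∧ c ≫ g = b := by
  obtain ⟨U12, h12⟩ := c2.isOpen c1.X c1.ξ
  obtain ⟨U21, h21⟩ := c1.isOpen c2.X c2.ξ
  obtain ⟨t, ht⟩ := Chart.exists_trans c1 c2 U12 U21 h12 h21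
  obtain ⟨t', ht'⟩ := Chart.exists_trans c2 c1 U21 U12 h21 h12
  have h1 : t ≫ t' = 𝟙 _ := by
    have := mono_of_isOpenImmersion (incl c1.X U12)
    rw [← cancel_mono (incl c1.X U12), Category.id_comp]
    apply c1.mono
    rw [Category.assoc, map_comp', ht', ← map_comp', ht]
  have h2 : t' ≫ t = 𝟙 _ := by
    have := mono_of_isOpenImmersion (incl c2.X U21)
    rw [← cancel_mono (incl c2.X U21), Category.id_comp]
    apply c2.mono
    rw [Category.assoc, map_comp', ht, ← map_comp', ht']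
  have hiso : IsIso t.left :=
    ⟨t'.left, by rw [← Over.comp_left, h1]; rfl, by rw [← Over.comp_left, h2]; rfl⟩
  refine ⟨restr c1.X U12, incl c1.X U12, t ≫ incl c2.X U21, inferInstance, ?_, ht.symm, ?_⟩
  · rw [Over.comp_left]
    infer_instance
  · intro T' a b hab
    obtain ⟨c, hc⟩ := exists_liftU U12 a ((h12 _ a).2 ⟨b, hab.symm⟩)
    refine ⟨c, hc, ?_⟩
    apply c2.mono
    rw [map_comp', ht, ← map_comp', hc, hab]

/-- `(X, ξ)` is obtained by gluing the two charts `c1`, `c2`. -/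
structure IsMerge (c1 c2 : Chart F) (X : Over S) (ξ : F.obj (op X)) (j1 : c1.X ⟶ X)
    (j2 : c2.X ⟶ X) : Prop where
  oi1 : IsOpenImmersion j1.left
  oi2 : IsOpenImmersion j2.left
  cover : ∀ z : X.left, z ∈ Set.range j1.left.base ∨ z ∈ Set.range j2.left.base
  map1 : F.map j1.op ξ = c1.ξ
  map2 : F.map j2.op ξ = c2.ξ
  glue : ∀ (T' : Over S) (a : T' ⟶ c1.X) (b : T' ⟶ c2.X),
    F.map a.op c1.ξ = F.map b.op c2.ξ → a ≫ j1 = b ≫ j2

lemma IsMerge.symm {c1 c2 : Chart F} {X : Over S} {ξ : F.obj (op X)} {j1 : c1.X ⟶ X}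
    {j2 : c2.X ⟶ X} (H : IsMerge c1 c2 X ξ j1 j2) : IsMerge c2 c1 X ξ j2 j1 where
  oi1 := H.oi2
  oi2 := H.oi1
  cover z := (H.cover z).symm
  map1 := H.map2
  map2 := H.map1
  glue T' a b hab := (H.glue T' b a hab.symm).symm

/-- existence of the glued object -/
lemma Chart.exists_isMerge (hglue : HasGlue2 F) (c1 c2 : Chart F) :
    ∃ (X : Over S) (ξ : F.obj (op X)) (j1 : c1.X ⟶ X) (j2 : c2.X ⟶ X),
      IsMerge c1 c2 X ξ j1 j2 := by
  obtain ⟨W, f, g, hf, hg, hfg, huniv⟩ := Chart.exists_overlap c1 c2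
  have hw : f.left ≫ c1.X.hom = g.left ≫ c2.X.hom := by rw [Over.w f, Over.w g]
  let X : Over S := Over.mk (pushout.desc c1.X.hom c2.X.hom hw)
  let j1 : c1.X ⟶ X := Over.homMk (pushout.inl f.left g.left) (pushout.inl_desc _ _ _)
  let j2 : c2.X ⟶ X := Over.homMk (pushout.inr f.left g.left) (pushout.inr_desc _ _ _)
  have hj1 : IsOpenImmersion j1.left := inferInstanceAs (IsOpenImmersion (pushout.inl f.left g.left))
  have hj2 : IsOpenImmersion j2.left := inferInstanceAs (IsOpenImmersion (pushout.inr f.left g.left))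
  have hcond : f ≫ j1 = g ≫ j2 := by
    ext1
    exact pushout.condition
  have hcov : ∀ z : X.left, z ∈ Set.range j1.left.base ∨ z ∈ Set.range j2.left.base :=
    fun z => pushout_cover f.left g.left z
  have hinter : ∀ (T' : Over S) (a : T' ⟶ c1.X) (b : T' ⟶ c2.X), a ≫ j1 = b ≫ j2 →
      F.map a.op c1.ξ = F.map b.op c2.ξ := by
    intro T' a b hab
    obtain ⟨c, hc⟩ := exists_liftOI f a (fun x => by
      have hx : pushout.inl f.left g.left (a.left x) = pushout.inr f.left g.left (b.left x) := by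
        have := congrArg (fun φ => φ.left x) hab
        simp only [Over.comp_left, Scheme.Hom.comp_apply] at this
        exact this
      obtain ⟨z, hz, -⟩ := pushout_inter f.left g.left _ _ hx
      exact ⟨z, hz⟩)
    have hcb : c ≫ g = b := by
      have := mono_of_isOpenImmersion j2
      rw [← cancel_mono j2, Category.assoc, ← hcond, ← Category.assoc, hc, hab]
    rw [← hc, ← hcb, map_comp', map_comp', hfg]
  obtain ⟨ξ, hξ1, hξ2⟩ := glue2' hglue j1 j2 hcov c1.ξ c2.ξ hinter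
  refine ⟨X, ξ, j1, j2, hj1, hj2, hcov, hξ1, hξ2, ?_⟩
  intro T' a b hab
  obtain ⟨c, rfl, rfl⟩ := huniv T' a b hab
  rw [Category.assoc, Category.assoc, hcond]

end Fermat.Agent.S25.Rep
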